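/-
Programme T1B (row 38 via S44), brick P00-FAMILY (helper75), file 1: THE FAMILY `P00 E ≤ Pic X_{O_E}`
OVER THE LEVELS `E : NLevel p K`, FROM NUMBER-FIELD-LEVEL DATA (abstract in the hub chart `c0`).

`c0 : TwoChart W B0 B1 B01` over `W = Wb p K`, flat charts.  For a level `E : NLevel p K`
(`L = E.L ⊇ K` a number field, `O_L = Wb p L`, `O_E = intSubring p E.E`, `E.E = ℚ_p(ι L)`):

* per-level input: `π : O_L` (`π ≠ 0`), `hg : NodalGood (c0.baseChange O_L) π (Fin 2)`,
  components `X i : Bal60.Comp (c0.baseChange O_L) (hg.P0 i) (hg.P1 i) κ`;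
* `hgO E hπ hg`     : `NodalGood (c0.baseChange O_E) (toO E.levL π) (Fin 2)` (helper53's
  `Level.nodalGood_level`), `XO E hπ hg X` : the components over `O_E` (`Bal.compHub`);
* `P00O E hπ hg X : Subgroup (PicO c0 E)` : multidegree `0`;
* `J1Fam_le_P00O`   : `J1Fam c0 E ≤ P00O …` when `π` generates the maximal ideal of `O_L`;
* `bcOO_mem_P00O`   : for `E ≤ E'`, from `Bal60.CompBC (X i) (X' i)` at the number-field levels,
  `Union.bcOO c0 hE` maps `P00O E …` into `P00O E' …`;
* `NFData c0` (bundle of the per-level data over all levels), `P00Fam D`, `compatible_P00Fam D`,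
  `J1Fam_le_P00Fam D` : the first three binders of `Local66.Glue.localGeom_of_fields`.
-/
import Mathlib
import Fermat.Agent.T1B.Local66.Objects
import Fermat.Agent.T1B.NodalBC53.Level
import Fermat.Agent.T1B.NodalBC53.Bal
import Fermat.Agent.T1B.NodalBC53.Tower

set_option autoImplicit false
set_option linter.unusedSectionVars false
set_option linter.unusedVariables false
set_option linter.style.haveILetI false
set_option synthInstance.maxHeartbeats 400000
set_option maxHeartbeats 1000000

open TensorProduct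
open Fermat.Agent.TW.B5.Iface Fermat.Agent.RED.Interface4 Fermat.Agent.T1.HubInst98
open Fermat.Agent.T1.IntSub47 Fermat.Agent.Jac Fermat.Agent.T1.RedIface75
open Fermat.Agent.T1B.Local66.LocalBase Fermat.Agent.T1B.Local66.Union
open Fermat.Agent.T1B.Local66.Objects
open Fermat.Agent.T1B.Bridge54.IpUnion
open Fermat.Agent.T1B.RedN3 Fermat.Agent.T1B.Bal60
open Fermat.Agent.T1B.NodalBC53.Fibre Fermat.Agent.T1B.NodalBC53.Transfer
open Fermat.Agent.T1B.NodalBC53.Level Fermat.Agent.T1B.NodalBC53.Bal
open Fermat.Agent.T1B.NodalBC53.Tower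
open Fermat.Agent.Jac.BaseChange75
open scoped Fermat.Agent.Jac.BaseChange75

noncomputable section

namespace Fermat.Agent.T1B.P00Hub75

variable {p : ℕ} [Fact p.Prime] {K : IntermediateField ℚ Qbar}
  {B0 B1 B01 : Type} [CommRing B0] [CommRing B1] [CommRing B01]
  [Algebra (Wb p K) B0] [Algebra (Wb p K) B1] [Algebra (Wb p K) B01] [Algebra B0 B01]
  [Algebra B1 B01] [IsScalarTower (Wb p K) B0 B01] [IsScalarTower (Wb p K) B1 B01]
  [Module.Flat (Wb p K) B0] [Module.Flat (Wb p K) B1] [Module.Flat (Wb p K) B01]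
  (c0 : TwoChart (Wb p K) B0 B1 B01)

/-- `ι L` is dense in `E.E = ℚ_p(ι L)`. -/
theorem denseIn_level (E : NLevel p K) : DenseIn p E.L E.E := by
  have h := denseIn_localField p E.L
  rw [← E.hE] at h
  exact h

/-! ### One level -/

section Level

variable (E : NLevel p K) {π : Wb p E.L} (hπ : π ≠ 0)
  (hg : letI := algAK (padicPlace p) E.leL
    NodalGood (c0.baseChange (Wb p E.L)) π (Fin 2))
  {κ : Type} [Field κ]
  (X : letI := algAK (padicPlace p) E.leL
    ∀ i, Comp (c0.baseChange (Wb p E.L)) (hg.P0 i) (hg.P1 i) κ)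

/-- **`NodalGood` over `O_E`** (helper53's `Level.nodalGood_level`). -/
def hgO : letI := algWO E.lev
    NodalGood (c0.baseChange ↥(intSubring p E.E)) (toO E.levL π) (Fin 2) :=
  nodalGood_level c0 E.leL E.levL (denseIn_level E) hπ hg

/-- **The components of the special fibre over `O_E`** (helper53's `Bal.compHub`). -/
def XO : letI := algWO E.lev
    ∀ i, Comp (c0.baseChange ↥(intSubring p E.E)) ((hgO c0 E hπ hg).P0 i)
      ((hgO c0 E hπ hg).P1 i) κ :=
  letI := algAK (padicPlace p) E.leL
  letI := algWO E.levL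
  letI := algWO E.lev
  haveI := tower_W_OL_OE E.leL E.levL
  compHub c0 (sameFibre_level E.levL (denseIn_level E) hπ) (regular_level E.levL hπ) hg X

/-- **The multidegree-zero subgroup of `Pic X_{O_E}`.** -/
def P00O : Subgroup (PicO c0 E) :=
  letI := algWO E.lev
  P00 (hgO c0 E hπ hg) (XO c0 E hπ hg X)

include hπ in
/-- the image of a uniformiser of `O_L` generates the maximal ideal of `O_E`. -/
theorem maximalIdeal_O_eq (hmax : IsLocalRing.maximalIdeal (Wb p E.L) = Ideal.span {π}) :
    haveI := isDVR_O E.E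
    IsLocalRing.maximalIdeal ↥(intSubring p E.E) = Ideal.span {toO E.levL π} := by
  haveI := isDVR_O E.E
  have h := sameFibre_level E.levL (denseIn_level E) hπ
  have hmem : π ∈ Ideal.span ({π} : Set (Wb p E.L)) := Ideal.subset_span rfl
  haveI hP : (Ideal.span ({π} : Set (Wb p E.L))).IsPrime := by
    rw [← hmax]
    exact (IsLocalRing.maximalIdeal.isMaximal _).isPrime
  have hprime := h.map_isPrime (Ideal.span ({π} : Set (Wb p E.L))) hmem
  rw [Ideal.map_span, Set.image_singleton] at hprime
  have hne : Ideal.span ({toO E.levL π} : Set ↥(intSubring p E.E)) ≠ ⊥ := by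
    intro h0
    rw [Ideal.span_singleton_eq_bot] at h0
    have h1 := regular_level E.levL hπ 1 (by rw [mul_one]; exact h0)
    exact one_ne_zero h1
  exact (IsLocalRing.eq_maximalIdeal (hprime.isMaximal hne)).symm

/-- **`J̃¹(O_E) ≤ P00(O_E)`.** -/
theorem J1Fam_le_P00O (hmax : IsLocalRing.maximalIdeal (Wb p E.L) = Ideal.span {π}) :
    J1Fam c0 E ≤ P00O c0 E hπ hg X := by
  letI := algAK (padicPlace p) E.leL
  letI := algWO E.levL
  letI := algWO E.lev
  haveI := tower_W_OL_OE E.leL E.levL
  haveI := isDVR_O E.E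
  exact J1_le_P00_transfer c0 (sameFibre_level E.levL (denseIn_level E) hπ)
    (regular_level E.levL hπ) hg X (maximalIdeal_O_eq E hπ hmax)

end Level

/-! ### Two levels -/

section TwoLevels

variable {E E' : NLevel p K} (hE : E ≤ E') {π : Wb p E.L} {π' : Wb p E'.L} (hπ : π ≠ 0)
  (hπ' : π' ≠ 0)
  (hg : letI := algAK (padicPlace p) E.leL
    NodalGood (c0.baseChange (Wb p E.L)) π (Fin 2))
  (hg' : letI := algAK (padicPlace p) E'.leL
    NodalGood (c0.baseChange (Wb p E'.L)) π' (Fin 2))
  {κ κ' : Type} [Field κ] [Field κ'] [Algebra κ κ']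
  (X : letI := algAK (padicPlace p) E.leL
    ∀ i, Comp (c0.baseChange (Wb p E.L)) (hg.P0 i) (hg.P1 i) κ)
  (X' : letI := algAK (padicPlace p) E'.leL
    ∀ i, Comp (c0.baseChange (Wb p E'.L)) (hg'.P0 i) (hg'.P1 i) κ')

/-- the tower `W → O_L → O_L'`. -/
theorem tower_W_OL_OL' :
    letI := algAK (padicPlace p) E.leL
    letI := algAK (padicPlace p) E'.leL
    letI := algAK (padicPlace p) (NLevel.le_def.1 hE)
    IsScalarTower (Wb p K) (Wb p E.L) (Wb p E'.L) := by
  letI := algAK (padicPlace p) E.leL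
  letI := algAK (padicPlace p) E'.leL
  letI := algAK (padicPlace p) (NLevel.le_def.1 hE)
  exact IsScalarTower.of_algebraMap_eq
    (fun x => (inclAK_trans (padicPlace p) E.leL (NLevel.le_def.1 hE) x).symm)

/-- **`hPP` between two levels**: `Pic X_{O_E} → Pic X_{O_E'}` maps `P00` into `P00`, given the
comparison data between the components at the number-field levels. -/
theorem bcOO_mem_P00O
    (bc : letI := algAK (padicPlace p) E.leL
      letI := algAK (padicPlace p) E'.leL
      letI := algAK (padicPlace p) (NLevel.le_def.1 hE)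
      haveI := tower_W_OL_OL' hE
      ∀ i, CompBC (X i) (X' i)) :
    ∀ x ∈ P00O c0 E hπ hg X, bcOO c0 hE x ∈ P00O c0 E' hπ' hg' X' := by
  letI := algAK (padicPlace p) E.leL
  letI := algAK (padicPlace p) E'.leL
  letI := algAK (padicPlace p) (NLevel.le_def.1 hE)
  haveI := tower_W_OL_OL' hE
  letI := algWO E.levL
  letI := algWO E'.levL
  letI := algWO E.lev
  letI := algWO E'.lev
  haveI := tower_W_OL_OE E.leL E.levL
  haveI := tower_W_OL_OE E'.leL E'.levL
  letI := algOO (p := p) (NLevel.E_le hE)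
  haveI := tower_W_O_O E.lev (NLevel.E_le hE)
  have hsq : ∀ x : Wb p E.L,
      algebraMap ↥(intSubring p E.E) ↥(intSubring p E'.E)
          (algebraMap (Wb p E.L) ↥(intSubring p E.E) x) =
        algebraMap (Wb p E'.L) ↥(intSubring p E'.E)
          (algebraMap (Wb p E.L) (Wb p E'.L) x) := fun x => Subtype.ext rfl
  exact map_mem_P00_square c0 hsq (sameFibre_level E.levL (denseIn_level E) hπ)
    (sameFibre_level E'.levL (denseIn_level E') hπ') (regular_level E.levL hπ)
    (regular_level E'.levL hπ') hg hg' X X' id bc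

end TwoLevels

/-! ### The family -/

/-- **The number-field-level data of the family `P00`**: for every level `E` (`L = E.L`), a
uniformiser `π E` of `O_L = Wb p L`, `NodalGood` for `c0.baseChange O_L`, its two components over
a field `κ E`, and the comparison data for `E ≤ E'`. -/
structure NFData where
  π : ∀ E : NLevel p K, Wb p E.L
  hmax : ∀ E, IsLocalRing.maximalIdeal (Wb p E.L) = Ideal.span {π E}
  hπ : ∀ E, π E ≠ 0
  hg : ∀ E : NLevel p K, letI := algAK (padicPlace p) E.leL
    NodalGood (c0.baseChange (Wb p E.L)) (π E) (Fin 2)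
  κ : NLevel p K → Type
  fieldκ : ∀ E, Field (κ E)
  algκ : ∀ E E' : NLevel p K, E ≤ E' → Algebra (κ E) (κ E')
  X : ∀ E : NLevel p K, letI := algAK (padicPlace p) E.leL
    letI := fieldκ E
    ∀ i, Comp (c0.baseChange (Wb p E.L)) ((hg E).P0 i) ((hg E).P1 i) (κ E)
  bc : ∀ (E E' : NLevel p K) (hE : E ≤ E'),
    letI := algAK (padicPlace p) E.leL
    letI := algAK (padicPlace p) E'.leL
    letI := algAK (padicPlace p) (NLevel.le_def.1 hE)
    haveI := tower_W_OL_OL' hE
    letI := fieldκ E
    letI := fieldκ E'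
    letI := algκ E E' hE
    ∀ i, CompBC (X E i) (X E' i)

variable {c0}

/-- **The family `P00`.** -/
def P00Fam (D : NFData c0) (E : NLevel p K) : Subgroup (PicO c0 E) :=
  letI := D.fieldκ E
  P00O c0 E (D.hπ E) (D.hg E) (D.X E)

/-- **`hPP`**: the family `P00` is compatible with base change. -/
theorem compatible_P00Fam (D : NFData c0) : Compatible c0 (P00Fam D) := by
  intro E E' hE x hx
  letI := D.fieldκ E
  letI := D.fieldκ E'
  letI := D.algκ E E' hE
  exact bcOO_mem_P00O c0 hE (D.hπ E) (D.hπ E') (D.hg E) (D.hg E') (D.X E) (D.X E')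
    (D.bc E E' hE) x hx

/-- **`hJP`**: `J̃¹(O_E) ≤ P00(O_E)`. -/
theorem J1Fam_le_P00Fam (D : NFData c0) (E : NLevel p K) : J1Fam c0 E ≤ P00Fam D E := by
  letI := D.fieldκ E
  exact J1Fam_le_P00O c0 E (D.hπ E) (D.hg E) (D.X E) (D.hmax E)

end Fermat.Agent.T1B.P00Hub75
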